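import Fermat.Agent.S41.TR.Par
import Fermat.Agent.S41.TR.ConjDel
import Fermat.Agent.S41.HK.Defs
import Fermat.Agent.G.Per.Defs

/-!
# S41, row IH : Ihara's lemma mod `p` (the Ihara kernel is Eisenstein, hence `θ` does not occur)

`φ₁ φ₂ ∈ Hom_pe(Γ₀(N), 𝔄)` with `φ₁ ∘ A + φ₂ ∘ B = 0` glue to `Φ` on `Δ_N` (package TR); the
Eisenstein property of `Φ` (package CSP/EIS, here the hypothesis `S41ihEis`) then gives
`T_ℓ φ = (ℓ + 1) φ` for `ℓ ≡ 1 mod N'` and `T_ℓ² φ = (ℓ + 1)² φ`; an eigensystem `θ` with a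
non-Eisenstein prime (package NE) cannot occur.
-/

set_option autoImplicit false

namespace Fermat.Agent.S41

open CongruenceSubgroup Fermat.Agent.S16LB Fermat.Agent.G Matrix
open scoped MatrixGroups

/-- THE EISENSTEIN PROPERTY (interface of the bridge row EIS): a function on `Δ_N`, additive and
killing the trace `2` elements, restricts to an Eisenstein character of `Γ₀(N)`. -/
def S41ihEis (q N : ℕ) (𝔄 : Type*) [AddCommGroup 𝔄] : Prop :=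
  ∀ (Φ : SL(2, ℚ) → 𝔄), (∀ x ∈ s41cDelta q N, ∀ y ∈ s41cDelta q N, Φ (x * y) = Φ x + Φ y) →
    (∀ x ∈ s41cDelta q N, (x : Matrix (Fin 2) (Fin 2) ℚ).trace = 2 → Φ x = 0) →
    ∀ φ : s16lbAb N →+ 𝔄, (∀ γ : Gamma0 N, φ (s16lbCls N (Additive.ofMul γ)) = Φ (s41trCast γ)) →
    ∃ N' : ℕ, 0 < N' ∧ ∀ ℓ : ℕ, ℓ.Prime → ¬ ℓ ∣ N' * q * N →
      ((ℓ ≡ 1 [MOD N'] → φ.comp (gprT N ℓ) = (ℓ + 1) • φ) ∧
        (φ.comp (gprT N ℓ)).comp (gprT N ℓ) = (ℓ + 1) ^ 2 • φ)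

section glue

variable {N q : ℕ} [Fact q.Prime] {𝔄 : Type*} [AddCommGroup 𝔄]

/-- the entry relations `γ₂ = δ γ₁ δ⁻¹` force `γ₁ ∈ Γ₀(N q)`, `γ₁ = a(γ)`, `γ₂ = b(γ)` -/
theorem s41ih_exists_level {γ₁ γ₂ : Gamma0 N} (h00 : γ₂.1 0 0 = γ₁.1 0 0)
    (h01 : γ₂.1 0 1 = q * γ₁.1 0 1) (h10 : q * γ₂.1 1 0 = γ₁.1 1 0) (h11 : γ₂.1 1 1 = γ₁.1 1 1) :
    ∃ γ : Gamma0 (N * q), s41hkIncl N q γ = γ₁ ∧ s41hkDelta N q γ = γ₂ := by
  have hq0 : (q : ℤ) ≠ 0 := Nat.cast_ne_zero.2 (Fact.out : q.Prime).ne_zero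
  have hN2 : (N : ℤ) ∣ γ₂.1 1 0 := s16lb_dvd_of_mem_Gamma0 γ₂.2
  have hmem : (γ₁ : SL(2, ℤ)) ∈ Gamma0 (N * q) := by
    apply s16lb_mem_Gamma0_of_dvd
    rw [← h10]
    push_cast
    rw [mul_comm (N : ℤ)]
    exact mul_dvd_mul_left _ hN2
  refine ⟨⟨γ₁, hmem⟩, Subtype.ext rfl, ?_⟩
  have hspec := s41hkDelta_spec N q ⟨γ₁, hmem⟩
  have e := fun i j => congrFun (congrFun hspec i) j
  apply Subtype.ext
  ext i j
  fin_cases i <;> fin_cases j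
  · have := e 0 0
    simp [s41hkDeltaMat, Matrix.mul_apply, Fin.sum_univ_two] at this
    show (s41hkDelta N q ⟨γ₁, hmem⟩).1 0 0 = γ₂.1 0 0
    rw [h00]
    have h' : (q : ℤ) * γ₁.1 0 0 = (q : ℤ) * (s41hkDelta N q ⟨γ₁, hmem⟩).1 0 0 := by
      rw [this]; ring
    exact (mul_left_cancel₀ hq0 h').symm
  · have := e 0 1
    simp [s41hkDeltaMat, Matrix.mul_apply, Fin.sum_univ_two] at this
    show (s41hkDelta N q ⟨γ₁, hmem⟩).1 0 1 = γ₂.1 0 1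
    rw [h01, ← this]
  · have := e 1 0
    simp [s41hkDeltaMat, Matrix.mul_apply, Fin.sum_univ_two] at this
    show (s41hkDelta N q ⟨γ₁, hmem⟩).1 1 0 = γ₂.1 1 0
    have h' : (q : ℤ) * (s41hkDelta N q ⟨γ₁, hmem⟩).1 1 0 = (q : ℤ) * γ₂.1 1 0 := by
      rw [h10, mul_comm, ← this]
    exact mul_left_cancel₀ hq0 h'
  · have := e 1 1
    simp [s41hkDeltaMat, Matrix.mul_apply, Fin.sum_univ_two] at this
    show (s41hkDelta N q ⟨γ₁, hmem⟩).1 1 1 = γ₂.1 1 1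
    rw [h11, this]

/-- THE GLUING STEP in the `s16lbAb` model. -/
theorem s41ih_glue (hqN : ¬ q ∣ N) (φ₁ φ₂ : s16lbAb N →+ 𝔄)
    (h₁ : φ₁ ∈ gprHomPE N 𝔄)
    (hker : φ₁.comp (s41hkA N q) + φ₂.comp (s41hkB N q) = 0) :
    ∃ Φ : SL(2, ℚ) → 𝔄,
      (∀ x ∈ s41cDelta q N, ∀ y ∈ s41cDelta q N, Φ (x * y) = Φ x + Φ y) ∧
      (∀ γ : Gamma0 N, Φ (s41trCast γ) = φ₁ (s16lbCls N (Additive.ofMul γ))) ∧
      (∀ γ : Gamma0 N, Φ (s41trConj q (Fact.out : q.Prime).ne_zero (s41trCast γ)) =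
        - φ₂ (s16lbCls N (Additive.ofMul γ))) ∧
      (∀ x ∈ s41cDelta q N, (x : Matrix (Fin 2) (Fin 2) ℚ).trace = 2 ∨
        (x : Matrix (Fin 2) (Fin 2) ℚ).trace = -2 → Φ x = 0) := by
  have hq : q.Prime := Fact.out
  have hcop : Nat.Coprime N q := (Nat.Coprime.symm ((Nat.Prime.coprime_iff_not_dvd hq).2 hqN))
  refine s41tr_ihara_par hq hcop (φ₁.comp (s16lbCls N)) (φ₂.comp (s16lbCls N)) ?_ ?_
  · intro γ₁ γ₂ h00 h01 h10 h11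
    obtain ⟨γ, rfl, rfl⟩ := s41ih_exists_level h00 h01 h10 h11
    have := DFunLike.congr_fun hker (Additive.ofMul (Abelianization.of γ))
    simp only [AddMonoidHom.add_apply, AddMonoidHom.comp_apply, AddMonoidHom.zero_apply,
      s41hkA_of, s41hkB_of] at this
    exact this
  · intro γ hγ
    exact h₁ γ (le_of_eq hγ)

end glue

end Fermat.Agent.S41
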