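import Fermat.Agent.S41.IH.OfEis
import Fermat.Agent.S41.EIS.Bridge

/-!
# S41, row IH (593) : Ihara's lemma mod `p`

`s41ih_main`, VERBATIM from `Fermat/Agent/S41/Spec.lean` (helper24, 0a4d061): TR (`s41tr_ihara_par`)
+ CSP/EIS (`s41ei_bridge`) + NE (`s41ne_main_cyc`).
-/

set_option autoImplicit false

noncomputable section

namespace Fermat.Agent.S41

open WeierstrassCurve WeierstrassCurve.Affine WeierstrassCurve.Affine.Point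
open CongruenceSubgroup Fermat.Agent.S16LB Fermat.Agent.G
open scoped MatrixGroups

/-- **(IH)** Ihara's lemma mod `p`: a `θ`-eigen pair in the kernel of `α` mod `p` vanishes. -/
theorem s41ih_main (E : WeierstrassCurve ℚ) [E.IsElliptic] {W : WeierstrassCurve ℤ}
    (hW : W.IsIntegralModelOf E) {p N q : ℕ} (hp : p.Prime) (hp2 : p ≠ 2) (hN : 0 < N)
    [Fact q.Prime] (hqN : ¬ q ∣ N) (hqp : q ≠ p)
    (hirr : GaloisRepIsIrreducible (K := AlgebraicClosure ℚ) ℚ E p)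
    (φ₁ φ₂ : s16lbAb N →+ ZMod p) (h₁ : φ₁ ∈ gprHomPE N (ZMod p)) (h₂ : φ₂ ∈ gprHomPE N (ZMod p))
    (hker : φ₁.comp (s41hkA N q) + φ₂.comp (s41hkB N q) = 0)
    (heig₁ : ∀ ℓ : ℕ, ℓ.Prime → W.IsGoodPrimeFor ℓ → ¬ ℓ ∣ N * q → ℓ ≠ p →
      φ₁.comp (gprT N ℓ) = ((W.apOfModel ℓ : ℤ) : ZMod p) • φ₁)
    (heig₂ : ∀ ℓ : ℕ, ℓ.Prime → W.IsGoodPrimeFor ℓ → ¬ ℓ ∣ N * q → ℓ ≠ p →
      φ₂.comp (gprT N ℓ) = ((W.apOfModel ℓ : ℤ) : ZMod p) • φ₂) :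
    φ₁ = 0 ∧ φ₂ = 0 := by
  haveI : Fact p.Prime := ⟨hp⟩
  have hq : q.Prime := Fact.out
  have hcop : Nat.Coprime N q := Nat.Coprime.symm ((Nat.Prime.coprime_iff_not_dvd hq).2 hqN)
  have hEIS : S41ihEis q N (ZMod p) := fun Φ hmul hunip φ hφ =>
    s41ei_bridge hq hN hcop Φ ⟨hmul, hunip⟩ φ hφ
  have conv : ∀ φ : s16lbAb N →+ ZMod p,
      (∀ ℓ : ℕ, ℓ.Prime → W.IsGoodPrimeFor ℓ → ¬ ℓ ∣ N * q → ℓ ≠ p →
        φ.comp (gprT N ℓ) = ((W.apOfModel ℓ : ℤ) : ZMod p) • φ) →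
      ∀ ℓ : ℕ, ℓ.Prime → W.IsGoodPrimeFor ℓ → ¬ ℓ ∣ N * q * p →
        φ.comp (gprT N ℓ) = (W.apOfModel ℓ : ℤ) • φ := by
    intro φ h ℓ hℓ hg hd
    rw [h ℓ hℓ hg (fun hd' => hd (Dvd.dvd.mul_right hd' p))
      (fun e => hd (e ▸ Dvd.intro_left _ rfl))]
    exact Int.cast_smul_eq_zsmul (ZMod p) _ _
  exact s41ih_main_of_eis E hW hp2 hN hqN hirr hEIS φ₁ φ₂ h₁ hker (conv φ₁ heig₁) (conv φ₂ heig₂)

end Fermat.Agent.S41
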