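import Fermat.Agent.S41.IH.Core
import Fermat.Agent.S41.NE.MainCyc

/-!
# S41, row IH : Ihara's lemma mod `p`, modulo the Eisenstein bridge

If `(φ₁, φ₂) ∈ Hom_pe(Γ₀(N), 𝔽_p)²` lies in the kernel of `α = a^* + b^*` and both components are
eigenvectors of the `T_ℓ` (`ℓ` good, `ℓ ∤ N q p`) with eigenvalues `a_ℓ(W) mod p`, `E[p]` irreducible,
then `φ₁ = φ₂ = 0`.
-/

set_option autoImplicit false

namespace Fermat.Agent.S41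

open CongruenceSubgroup Fermat.Agent.S16LB Fermat.Agent.G Matrix
open WeierstrassCurve WeierstrassCurve.Affine WeierstrassCurve.Affine.Point
open scoped MatrixGroups

/-- an eigencharacter with an Eisenstein-type constraint and a non-Eisenstein prime vanishes -/
theorem s41ih_zero_of_eis {p : ℕ} [Fact p.Prime] {N q : ℕ} (φ : s16lbAb N →+ ZMod p)
    (θ : ℕ → ℤ) (good : ℕ → Prop)
    (heig : ∀ ℓ : ℕ, ℓ.Prime → good ℓ → φ.comp (gprT N ℓ) = θ ℓ • φ) {N' : ℕ}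
    (heis : ∀ ℓ : ℕ, ℓ.Prime → ¬ ℓ ∣ N' * q * N →
      ((ℓ ≡ 1 [MOD N'] → φ.comp (gprT N ℓ) = (ℓ + 1) • φ) ∧
        (φ.comp (gprT N ℓ)).comp (gprT N ℓ) = (ℓ + 1) ^ 2 • φ))
    (hNE : ∃ ℓ : ℕ, ℓ.Prime ∧ ¬ ℓ ∣ N' * q * N ∧ good ℓ ∧ (ℓ ≡ 1 [MOD N'] ∨ p ∣ ℓ + 1) ∧
      ¬ (p : ℤ) ∣ (ℓ : ℤ) + 1 - θ ℓ) : φ = 0 := by
  by_contra hφ
  obtain ⟨x, hx⟩ := DFunLike.ne_iff.1 hφ
  rw [AddMonoidHom.zero_apply] at hx
  obtain ⟨ℓ, hℓ, hℓN, hgood, hcase, hne⟩ := hNE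
  obtain ⟨h1, h2⟩ := heis ℓ hℓ hℓN
  have hθ := heig ℓ hℓ hgood
  apply hne
  rcases hcase with hc | hc
  · have e := h1 hc
    rw [hθ] at e
    have e' := DFunLike.congr_fun e x
    rw [AddMonoidHom.smul_apply, AddMonoidHom.smul_apply, zsmul_eq_mul, nsmul_eq_mul] at e'
    have e'' : ((θ ℓ : ℤ) : ZMod p) = ((ℓ + 1 : ℕ) : ZMod p) := mul_right_cancel₀ hx e'
    rw [← ZMod.intCast_zmod_eq_zero_iff_dvd]
    push_cast
    rw [e'']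
    push_cast
    ring
  · have e : (θ ℓ • φ).comp (gprT N ℓ) = (ℓ + 1) ^ 2 • φ := by rw [← hθ]; exact h2
    have e' := DFunLike.congr_fun e x
    rw [AddMonoidHom.comp_apply, AddMonoidHom.smul_apply, ← AddMonoidHom.comp_apply, hθ,
      AddMonoidHom.smul_apply, AddMonoidHom.smul_apply, zsmul_eq_mul, zsmul_eq_mul,
      nsmul_eq_mul] at e'
    have hz : ((ℓ + 1 : ℕ) : ZMod p) = 0 := (ZMod.natCast_eq_zero_iff _ _).2 hc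
    have hz' : ((ℓ : ZMod p) + 1) = 0 := by exact_mod_cast hz
    have e'' : ((θ ℓ : ℤ) : ZMod p) * ((θ ℓ : ℤ) : ZMod p) = 0 := by
      have : ((θ ℓ : ℤ) : ZMod p) * (((θ ℓ : ℤ) : ZMod p) * φ x) = 0 := by
        rw [e']; push_cast; rw [hz']; ring
      rw [← mul_assoc] at this
      exact (mul_eq_zero.1 this).resolve_right hx
    have hθ0 : ((θ ℓ : ℤ) : ZMod p) = 0 := mul_self_eq_zero.1 e''
    rw [← ZMod.intCast_zmod_eq_zero_iff_dvd]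
    push_cast
    rw [hθ0]
    rw [hz', sub_zero]

/-- IHARA'S LEMMA MOD `p` (row IH), modulo the Eisenstein bridge `S41ihEis`. -/
theorem s41ih_main_of_eis (E : WeierstrassCurve ℚ) [E.IsElliptic] {W : WeierstrassCurve ℤ}
    (hW : W.IsIntegralModelOf E) {p N q : ℕ} [Fact p.Prime] [Fact q.Prime] (hp2 : p ≠ 2)
    (hN : 0 < N) (hqN : ¬ q ∣ N)
    (hirr : GaloisRepIsIrreducible (K := AlgebraicClosure ℚ) ℚ E p)
    (hEIS : S41ihEis q N (ZMod p))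
    (φ₁ φ₂ : s16lbAb N →+ ZMod p) (h₁ : φ₁ ∈ gprHomPE N (ZMod p))
    (hker : φ₁.comp (s41hkA N q) + φ₂.comp (s41hkB N q) = 0)
    (heig₁ : ∀ ℓ : ℕ, ℓ.Prime → W.IsGoodPrimeFor ℓ → ¬ ℓ ∣ N * q * p →
      φ₁.comp (gprT N ℓ) = (W.apOfModel ℓ : ℤ) • φ₁)
    (heig₂ : ∀ ℓ : ℕ, ℓ.Prime → W.IsGoodPrimeFor ℓ → ¬ ℓ ∣ N * q * p →
      φ₂.comp (gprT N ℓ) = (W.apOfModel ℓ : ℤ) • φ₂) :
    φ₁ = 0 ∧ φ₂ = 0 := by
  have hp : p.Prime := Fact.out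
  have hq : q.Prime := Fact.out
  obtain ⟨Φ, hΦmul, hΦ1, hΦ2, hΦtr⟩ := s41ih_glue hqN φ₁ φ₂ h₁ hker
  -- the common final step
  have key : ∀ φ : s16lbAb N →+ ZMod p,
      (∀ ℓ : ℕ, ℓ.Prime → W.IsGoodPrimeFor ℓ → ¬ ℓ ∣ N * q * p →
        φ.comp (gprT N ℓ) = (W.apOfModel ℓ : ℤ) • φ) →
      (∃ N' : ℕ, 0 < N' ∧ ∀ ℓ : ℕ, ℓ.Prime → ¬ ℓ ∣ N' * q * N →
        ((ℓ ≡ 1 [MOD N'] → φ.comp (gprT N ℓ) = (ℓ + 1) • φ) ∧
          (φ.comp (gprT N ℓ)).comp (gprT N ℓ) = (ℓ + 1) ^ 2 • φ)) → φ = 0 := by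
    rintro φ heig ⟨N', hN', heis⟩
    have hprod : N' * q * N * p ≠ 0 :=
      Nat.mul_ne_zero (Nat.mul_ne_zero (Nat.mul_ne_zero hN'.ne' hq.ne_zero) hN.ne') hp.ne_zero
    obtain ⟨ℓ, hℓ, hℓBad, hℓgood, -, hcase, hne⟩ :=
      s41ne_main_cyc E hW hp hp2 hirr N' hN' (N' * q * N * p).primeFactors
    have hℓnd : ¬ ℓ ∣ N' * q * N * p := fun hd =>
      hℓBad (Nat.mem_primeFactors.2 ⟨hℓ, hd, hprod⟩)
    have hd1 : ¬ ℓ ∣ N' * q * N := fun hd => hℓnd (Dvd.dvd.mul_right hd p)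
    have hd2 : ¬ ℓ ∣ N * q * p := fun hd => hℓnd (by
      have : N' * q * N * p = N' * (N * q * p) := by ring
      rw [this]; exact Dvd.dvd.mul_left hd N')
    exact s41ih_zero_of_eis (q := q) φ (fun ℓ => (W.apOfModel ℓ : ℤ))
      (fun ℓ => W.IsGoodPrimeFor ℓ ∧ ¬ ℓ ∣ N * q * p)
      (fun ℓ hℓ hg => heig ℓ hℓ hg.1 hg.2) heis
      ⟨ℓ, hℓ, hd1, ⟨hℓgood, hd2⟩, hcase, hne⟩
  constructor
  · apply key φ₁ heig₁
    exact hEIS Φ hΦmul (fun x hx h => hΦtr x hx (Or.inl h)) φ₁ (fun γ => (hΦ1 γ).symm)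
  · apply key φ₂ heig₂
    have hq0 : q ≠ 0 := hq.ne_zero
    refine hEIS (fun x => - Φ (s41trConj q hq0 x)) ?_ ?_ φ₂ ?_
    · intro x hx y hy
      show - Φ (s41trConj q hq0 (x * y)) = - Φ (s41trConj q hq0 x) + - Φ (s41trConj q hq0 y)
      rw [map_mul, hΦmul _ (s41trConj_mem_cDelta hq0 hx) _ (s41trConj_mem_cDelta hq0 hy), neg_add]
    · intro x hx htr
      show - Φ (s41trConj q hq0 x) = 0
      rw [hΦtr _ (s41trConj_mem_cDelta hq0 hx) (Or.inl (by rw [s41trConj_trace]; exact htr)),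
        _root_.neg_zero]
    · intro γ
      show φ₂ (s16lbCls N (Additive.ofMul γ)) = - Φ (s41trConj q hq0 (s41trCast γ))
      rw [hΦ2 γ, neg_neg]

end Fermat.Agent.S41
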